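import Fermat.Agent.Density.Finite
import Fermat.Agent.Galois.Decomposition
import Mathlib.FieldTheory.Galois.Basic
import Fermat.Prelude.Def_EllipticCurve_FrobeniusTrace

/-!
# Frobenius's density theorem, transported to `Gal(ℚ̄/ℚ)`

For every finite level and every `g`, some power of a Frobenius element at a prime
outside any given finite set agrees with `g` at that level.
-/

set_option autoImplicit false

noncomputable section

namespace Fermat.Agent.Density

open NumberField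
open scoped Pointwise

theorem normal_qbar : Normal ℚ (AlgebraicClosure ℚ) :=
  have : Algebra.IsAlgebraic ℚ (AlgebraicClosure ℚ) := AlgebraicClosure.isAlgebraic ℚ
  have : IsAlgClosure ℚ (AlgebraicClosure ℚ) := ⟨inferInstance, inferInstance⟩
  IsAlgClosure.normal ℚ _

attribute [local instance] normal_qbar

/-- The embedding of the integers of a level into a valuation subring of `ℚ̄`. -/
def levelToPlace (L : IntermediateField ℚ (AlgebraicClosure ℚ))
    (A : ValuationSubring (AlgebraicClosure ℚ)) : 𝓞 L →+* A :=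
  ((algebraMap L (AlgebraicClosure ℚ)).comp (algebraMap (𝓞 L) L)).codRestrict A fun x =>
    Galois.place_mem_of_isIntegral A
      (map_isIntegral_int (algebraMap L (AlgebraicClosure ℚ)) x.2)

/-- Frobenius's theorem: at a normal finite level, `g` generates the same cyclic group as
some Frobenius element at a prime outside `S`. -/
theorem exists_frobenius_zpowers_restrictNormal
    (L : IntermediateField ℚ (AlgebraicClosure ℚ)) [FiniteDimensional ℚ L] [Normal ℚ L]
    (g : AlgebraicClosure ℚ ≃ₐ[ℚ] AlgebraicClosure ℚ) (S : Finset ℕ) :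
    ∃ p : ℕ, p.Prime ∧ p ∉ S ∧ ∃ A : ValuationSubring (AlgebraicClosure ℚ), A.LiesOverPrime p ∧
      ∃ σ : AlgebraicClosure ℚ ≃ₐ[ℚ] AlgebraicClosure ℚ, A.IsFrobeniusAt σ p ∧
        Subgroup.zpowers (σ.restrictNormal L) = Subgroup.zpowers (g.restrictNormal L) := by
  have : NumberField L := { }
  have : IsGalois ℚ L := { }
  obtain ⟨p, hp, hpS, -, h⟩ := exists_prime_isFrobAt_zpowers (g.restrictNormal L) S
  obtain ⟨A, σ, hA, hσ⟩ := Galois.exists_place_isFrobeniusAt hp
  set Q : Ideal (𝓞 L) := (IsLocalRing.maximalIdeal A).comap (levelToPlace L A) with hQ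
  have hmem : ∀ x : 𝓞 L, x ∈ Q ↔ (((x : L) : AlgebraicClosure ℚ)) ∈ A.nonunits := by
    intro x
    rw [hQ, Ideal.mem_comap, ← A.coe_mem_nonunits_iff]
    rfl
  have hF : IsFrobAt Q (σ.restrictNormal L) p := by
    refine ⟨inferInstance, ?_, fun x => ?_⟩
    · rw [hmem]
      exact hA
    · rw [hmem]
      have key : ((((σ.restrictNormal L) • x - x ^ p : 𝓞 L) : L) : AlgebraicClosure ℚ) =
          σ ((x : L) : AlgebraicClosure ℚ) - ((x : L) : AlgebraicClosure ℚ) ^ p := by
        have h1 := AlgEquiv.restrictNormal_commutes σ L (x : L)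
        rw [← show algebraMap L (AlgebraicClosure ℚ) (σ.restrictNormal L (x : L)) =
          σ ((x : L) : AlgebraicClosure ℚ) from h1]
        rfl
      rw [key]
      exact Galois.isFrobeniusAt_sub_mem_nonunits hσ (levelToPlace L A x).2
  obtain ⟨y, hy⟩ := h Q _ hF
  obtain ⟨z, rfl⟩ := AlgEquiv.restrictNormalHom_surjective (AlgebraicClosure ℚ) y
  refine ⟨p, hp, hpS, z • A, Galois.liesOverPrime_smul hA z, z * σ * z⁻¹,
    Galois.isFrobeniusAt_conj hσ z, ?_⟩
  rw [← hy]
  congr 1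
  change AlgEquiv.restrictNormalHom L (z * σ * z⁻¹) = _
  rw [map_mul, map_mul, map_inv]
  rfl

/-- Frobenius's theorem, power form, for an arbitrary finite level. -/
theorem exists_frobenius_pow_eq
    (L : IntermediateField ℚ (AlgebraicClosure ℚ)) [FiniteDimensional ℚ L]
    (g : AlgebraicClosure ℚ ≃ₐ[ℚ] AlgebraicClosure ℚ) (S : Finset ℕ) :
    ∃ p : ℕ, p.Prime ∧ p ∉ S ∧ ∃ A : ValuationSubring (AlgebraicClosure ℚ), A.LiesOverPrime p ∧
      ∃ σ : AlgebraicClosure ℚ ≃ₐ[ℚ] AlgebraicClosure ℚ, A.IsFrobeniusAt σ p ∧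
        ∃ k : ℕ, ∀ x ∈ L, (σ ^ k) x = g x := by
  set M := IntermediateField.normalClosure ℚ L (AlgebraicClosure ℚ)
  have : Normal ℚ M := normalClosure.normal ℚ _ _
  obtain ⟨p, hp, hpS, A, hA, σ, hσ, h⟩ := exists_frobenius_zpowers_restrictNormal M g S
  obtain ⟨k, hk⟩ := mem_powers_iff_mem_zpowers.mpr
    (h ▸ Subgroup.mem_zpowers (g.restrictNormal M) :
      g.restrictNormal M ∈ Subgroup.zpowers (σ.restrictNormal M))
  refine ⟨p, hp, hpS, A, hA, σ, hσ, k, fun x hx => ?_⟩
  have hk' : (σ ^ k).restrictNormal M = g.restrictNormal M := by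
    change AlgEquiv.restrictNormalHom M (σ ^ k) = _
    rw [map_pow]
    exact hk
  have hxM : x ∈ M := IntermediateField.le_normalClosure L hx
  have h1 := AlgEquiv.restrictNormal_commutes (σ ^ k) M ⟨x, hxM⟩
  rw [hk', AlgEquiv.restrictNormal_commutes] at h1
  exact h1.symm

/-- A predicate of finite level which holds at all powers of all Frobenius elements outside a
finite set holds everywhere. -/
theorem forall_of_forall_frobenius_pow
    {P : (AlgebraicClosure ℚ ≃ₐ[ℚ] AlgebraicClosure ℚ) → Prop}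
    (L : IntermediateField ℚ (AlgebraicClosure ℚ)) [FiniteDimensional ℚ L]
    (hP : ∀ g h : AlgebraicClosure ℚ ≃ₐ[ℚ] AlgebraicClosure ℚ,
      (∀ x ∈ L, g x = h x) → P g → P h)
    (S : Finset ℕ)
    (hF : ∀ p : ℕ, p.Prime → p ∉ S → ∀ A : ValuationSubring (AlgebraicClosure ℚ),
      A.LiesOverPrime p → ∀ σ : AlgebraicClosure ℚ ≃ₐ[ℚ] AlgebraicClosure ℚ,
        A.IsFrobeniusAt σ p → ∀ k : ℕ, P (σ ^ k))
    (g : AlgebraicClosure ℚ ≃ₐ[ℚ] AlgebraicClosure ℚ) : P g := by
  obtain ⟨p, hp, hpS, A, hA, σ, hσ, k, hk⟩ := exists_frobenius_pow_eq L g S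
  exact hP _ _ hk (hF p hp hpS A hA σ hσ k)

/-- Powers of Frobenius elements outside a finite set are dense in the Krull topology. -/
theorem dense_frobenius_pow (S : Finset ℕ) :
    Dense {τ : AlgebraicClosure ℚ ≃ₐ[ℚ] AlgebraicClosure ℚ | ∃ p : ℕ, p.Prime ∧ p ∉ S ∧
      ∃ A : ValuationSubring (AlgebraicClosure ℚ), A.LiesOverPrime p ∧
        ∃ σ : AlgebraicClosure ℚ ≃ₐ[ℚ] AlgebraicClosure ℚ, A.IsFrobeniusAt σ p ∧
          ∃ k : ℕ, σ ^ k = τ} := by
  intro g
  rw [mem_closure_iff]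
  intro U hU hgU
  obtain ⟨L, hL, hLU⟩ := (krullTopology_mem_nhds_one_iff ℚ (AlgebraicClosure ℚ) _).mp
    ((hU.preimage (continuous_const_mul g)).mem_nhds (by simpa using hgU) :
      (fun h => g * h) ⁻¹' U ∈ nhds (1 : AlgebraicClosure ℚ ≃ₐ[ℚ] AlgebraicClosure ℚ))
  obtain ⟨p, hp, hpS, A, hA, σ, hσ, k, hk⟩ := exists_frobenius_pow_eq L g S
  refine ⟨σ ^ k, ?_, p, hp, hpS, A, hA, σ, hσ, k, rfl⟩
  have : g⁻¹ * σ ^ k ∈ L.fixingSubgroup := by
    rw [IntermediateField.mem_fixingSubgroup_iff]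
    intro x hx
    rw [AlgEquiv.mul_apply, hk x hx, ← AlgEquiv.mul_apply, inv_mul_cancel, AlgEquiv.one_apply]
  simpa using hLU this

end Fermat.Agent.Density
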