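import Mathlib.Data.ZMod.QuotientGroup
import Mathlib.NumberTheory.ArithmeticFunction.Moebius
import Mathlib.Algebra.Group.Subgroup.Finite

/-!
# Inclusion–exclusion over the subgroups of a finite cyclic group
-/

set_option autoImplicit false

noncomputable section

namespace Fermat.Agent.Density

open ArithmeticFunction

variable {G : Type*} [Group G] [Finite G]

open scoped Classical in
theorem sum_moebius_mem_zpowers (g x : G) :
    ∑ d ∈ (orderOf g).divisors, moebius d * (if x ∈ Subgroup.zpowers (g ^ d) then 1 else 0) =
      if Subgroup.zpowers x = Subgroup.zpowers g then (1 : ℤ) else 0 := by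
  set n := orderOf g with hn
  have hn0 : 0 < n := orderOf_pos g
  by_cases hx : x ∈ Subgroup.zpowers g
  · obtain ⟨j, hj⟩ := mem_powers_iff_mem_zpowers.mpr hx
    have hj : g ^ j = x := hj
    have hiff : ∀ d ∈ n.divisors, (x ∈ Subgroup.zpowers (g ^ d) ↔ d ∣ j) := by
      intro d hd
      have hdn : d ∣ n := Nat.dvd_of_mem_divisors hd
      constructor
      · intro h
        obtain ⟨k, hk⟩ := mem_powers_iff_mem_zpowers.mpr h
        have hk' : g ^ (d * k) = g ^ j := by rw [pow_mul, hj]; exact hk
        have hmod : d * k ≡ j [MOD n] := pow_eq_pow_iff_modEq.mp hk'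
        exact Nat.modEq_zero_iff_dvd.mp
          (((hmod.of_dvd hdn).symm).trans (Nat.modEq_zero_iff_dvd.mpr (dvd_mul_right d k)))
      · rintro ⟨k, rfl⟩
        rw [← hj, pow_mul]
        exact pow_mem (Subgroup.mem_zpowers _) k
    have hgen : (Subgroup.zpowers x = Subgroup.zpowers g) ↔ n.gcd j = 1 := by
      constructor
      · intro h
        have : Nat.card (Subgroup.zpowers x) = Nat.card (Subgroup.zpowers g) := by rw [h]
        rw [Nat.card_zpowers, Nat.card_zpowers, ← hj, orderOf_pow, ← hn] at this
        exact Nat.eq_one_of_dvd_one (Nat.dvd_one.mpr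
          ((Nat.div_eq_self.mp this).resolve_left hn0.ne'))
      · intro h
        apply Subgroup.eq_of_le_of_card_ge
        · exact Subgroup.zpowers_le.mpr hx
        · rw [Nat.card_zpowers, Nat.card_zpowers, ← hj, orderOf_pow, ← hn, h, Nat.div_one]
    have hfil : n.divisors.filter (· ∣ j) = (n.gcd j).divisors := by
      ext d
      simp [Nat.dvd_gcd_iff, hn0.ne']
    calc ∑ d ∈ n.divisors, moebius d * (if x ∈ Subgroup.zpowers (g ^ d) then 1 else 0)
        = ∑ d ∈ n.divisors.filter (· ∣ j), moebius d := by
          rw [Finset.sum_filter]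
          refine Finset.sum_congr rfl fun d hd => ?_
          simp [hiff d hd]
      _ = (moebius * (zeta : ArithmeticFunction ℕ)) (n.gcd j) := by
          rw [hfil, coe_mul_zeta_apply]
      _ = _ := by rw [moebius_mul_coe_zeta, one_apply, if_congr hgen rfl rfl]
  · rw [if_neg fun h : Subgroup.zpowers x = Subgroup.zpowers g => hx (h ▸ Subgroup.mem_zpowers x)]
    refine Finset.sum_eq_zero fun d _ => ?_
    rw [if_neg fun h => hx ?_, mul_zero]
    exact (Subgroup.zpowers_le.mpr (pow_mem (Subgroup.mem_zpowers g) d)) h

open scoped Classical in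
/-- The number of generators of `zpowers g`, computed by inclusion–exclusion. -/
theorem sum_moebius_card_zpowers (g : G) :
    ∑ d ∈ (orderOf g).divisors, moebius d * (Nat.card (Subgroup.zpowers (g ^ d)) : ℤ) =
      Nat.card {x : G // Subgroup.zpowers x = Subgroup.zpowers g} := by
  cases nonempty_fintype G
  have h : ∀ P : G → Prop, (Nat.card {x : G // P x} : ℤ) = ∑ x : G, if P x then 1 else 0 := by
    intro P
    rw [Nat.card_eq_fintype_card, Fintype.card_subtype, Finset.card_filter]
    push_cast
    rfl
  rw [h, Finset.sum_congr rfl fun d _ => congrArg (moebius d * ·) (h (· ∈ Subgroup.zpowers (g ^ d)))]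
  simp only [Finset.mul_sum]
  rw [Finset.sum_comm]
  exact Finset.sum_congr rfl fun x _ => sum_moebius_mem_zpowers g x

end Fermat.Agent.Density
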