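import Fermat.Agent.Density.Zeta
import Fermat.Agent.Density.Moebius
import Mathlib.NumberTheory.NumberField.Ideal.Basic
import Mathlib.RingTheory.Frobenius
import Mathlib.FieldTheory.Galois.IsGaloisGroup
import Mathlib.FieldTheory.Finite.GaloisField

/-!
# Frobenius's density theorem at a finite Galois level
-/

set_option autoImplicit false
set_option linter.unusedSectionVars false

noncomputable section

namespace Fermat.Agent.Density

open NumberField Filter Topology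
open scoped Pointwise

variable {L : Type*} [Field L] [NumberField L]

theorem natCard_le_of_forall_pow_eq {R : Type*} [CommRing R] [IsDomain R] [Finite R] {p : ℕ}
    (hp : 1 < p) (h : ∀ a : R, a ^ p = a) : Nat.card R ≤ p := by
  cases nonempty_fintype R
  have hdeg : (Polynomial.X ^ p - Polynomial.X : Polynomial R).natDegree = p := by
    rw [Polynomial.natDegree_sub_eq_left_of_natDegree_lt (by simpa), Polynomial.natDegree_X_pow]
  have hne : (Polynomial.X ^ p - Polynomial.X : Polynomial R) ≠ 0 := fun h0 => by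
    rw [h0, Polynomial.natDegree_zero] at hdeg; omega
  have hsub : (Finset.univ : Finset R).val ≤
      (Polynomial.X ^ p - Polynomial.X : Polynomial R).roots := by
    refine (Multiset.le_iff_subset Finset.univ.nodup).mpr fun a _ => ?_
    rw [Polynomial.mem_roots hne]
    simp [h a]
  have := (Multiset.card_le_card hsub).trans (Polynomial.card_roots' _)
  rwa [hdeg, Finset.card_val, Finset.card_univ, ← Nat.card_eq_fintype_card] at this

/-- `σ` acts as `x ↦ x ^ p` modulo the prime `Q` over `p`. -/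
def IsFrobAt (Q : Ideal (𝓞 L)) (σ : L ≃ₐ[ℚ] L) (p : ℕ) : Prop :=
  Q.IsPrime ∧ (p : 𝓞 L) ∈ Q ∧ ∀ x : 𝓞 L, σ • x - x ^ p ∈ Q

variable (L) in
/-- Automorphisms are separated by the primes over `p`. -/
def Separated (p : ℕ) : Prop :=
  ∀ Q : Ideal (𝓞 L), Q.IsPrime → (p : 𝓞 L) ∈ Q →
    ∀ δ : L ≃ₐ[ℚ] L, (∀ x : 𝓞 L, δ • x - x ∈ Q) → δ = 1

theorem natCast_mem_eq {p q : ℕ} (hp : p.Prime) {Q : Ideal (𝓞 L)} (hQ : Q ≠ ⊤)
    (h₁ : (p : 𝓞 L) ∈ Q) (h₂ : (q : 𝓞 L) ∈ Q) : p ∣ q := by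
  by_contra h
  refine hQ (top_le_iff.mp ?_)
  rw [← natCast_sup_natCast_eq_top (K := L) ((Nat.Prime.coprime_iff_not_dvd hp).mpr h)]
  exact sup_le ((Ideal.span_singleton_le_iff_mem _).mpr h₁)
    ((Ideal.span_singleton_le_iff_mem _).mpr h₂)

theorem exists_smul_ne {δ : L ≃ₐ[ℚ] L} (hδ : δ ≠ 1) : ∃ x : 𝓞 L, δ • x ≠ x := by
  by_contra! h
  refine hδ (AlgEquiv.ext fun y => ?_)
  obtain ⟨a, b, _, rfl⟩ := IsFractionRing.div_surjective (A := 𝓞 L) y
  have key : ∀ c : 𝓞 L, δ (algebraMap (𝓞 L) L c) = algebraMap (𝓞 L) L c :=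
    fun c => congrArg Subtype.val (h c)
  rw [map_div₀, key, key, AlgEquiv.one_apply]

variable (L) in
theorem finite_not_separated : {p : ℕ | p.Prime ∧ ¬ Separated L p}.Finite := by
  classical
  choose x hx using fun δ : {δ : L ≃ₐ[ℚ] L // δ ≠ 1} => exists_smul_ne δ.2
  let N : {δ : L ≃ₐ[ℚ] L // δ ≠ 1} → ℕ := fun δ =>
    Ideal.absNorm (Ideal.span {δ.1 • x δ - x δ})
  have hN : ∀ δ, N δ ≠ 0 := by
    intro δ h
    rw [Ideal.absNorm_eq_zero_iff, Ideal.span_singleton_eq_bot, sub_eq_zero] at h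
    exact hx δ h
  refine Set.Finite.subset (Finset.univ.biUnion fun δ => (N δ).divisors).finite_toSet ?_
  rintro p ⟨hp, hns⟩
  simp only [Separated, not_forall] at hns
  obtain ⟨Q, hQ, hpQ, δ, hδ, hδ1⟩ := hns
  simp only [Finset.coe_biUnion, Set.mem_iUnion, Finset.mem_coe]
  refine ⟨⟨δ, hδ1⟩, Finset.mem_univ _, Nat.mem_divisors.mpr ⟨?_, hN _⟩⟩
  refine natCast_mem_eq hp hQ.ne_top hpQ ?_
  exact (Ideal.span_singleton_le_iff_mem _).mpr (hδ _) (Ideal.absNorm_mem _)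

theorem IsFrobAt.smul_mem_iff {Q : Ideal (𝓞 L)} {σ : L ≃ₐ[ℚ] L} {p : ℕ}
    (h : IsFrobAt Q σ p) (hp : p.Prime) (x : 𝓞 L) : σ • x ∈ Q ↔ x ∈ Q := by
  exact ⟨fun hs => h.1.mem_of_pow_mem p (by simpa using Q.sub_mem hs (h.2.2 x)),
    fun hs => by simpa using Q.add_mem (h.2.2 x) (Q.pow_mem_of_mem hs p hp.pos)⟩

/-- Two automorphisms congruent modulo a prime over a separated `p`, one of which stabilizes
that prime, are equal. -/
theorem Separated.eq_of_sub_mem {p : ℕ} (hsep : Separated L p) {Q : Ideal (𝓞 L)} (hQ : Q.IsPrime)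
    (hpQ : (p : 𝓞 L) ∈ Q) {σ δ : L ≃ₐ[ℚ] L} (hδ : ∀ x : 𝓞 L, δ • x ∈ Q ↔ x ∈ Q)
    (h : ∀ x : 𝓞 L, σ • x - δ • x ∈ Q) : σ = δ := by
  have h1 : δ⁻¹ * σ = 1 := hsep Q hQ hpQ _ fun x => by
    rw [← hδ, smul_sub, ← mul_smul, mul_inv_cancel_left]
    exact h x
  exact (inv_mul_eq_one.mp h1).symm

theorem IsFrobAt.unique {p : ℕ} (hp : p.Prime) (hsep : Separated L p) {Q : Ideal (𝓞 L)}
    {σ τ : L ≃ₐ[ℚ] L} (h : IsFrobAt Q σ p) (h' : IsFrobAt Q τ p) : σ = τ :=
  hsep.eq_of_sub_mem h.1 h.2.1 (h'.smul_mem_iff hp) fun x => by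
    simpa using Q.sub_mem (h.2.2 x) (h'.2.2 x)

theorem IsFrobAt.conj {p : ℕ} {Q : Ideal (𝓞 L)} {σ : L ≃ₐ[ℚ] L} (h : IsFrobAt Q σ p)
    (y : L ≃ₐ[ℚ] L) : IsFrobAt (y • Q) (y * σ * y⁻¹) p := by
  have := h.1
  refine ⟨inferInstance, ?_, fun x => ?_⟩
  · have : y • (p : 𝓞 L) ∈ y • Q := Ideal.smul_mem_pointwise_smul_iff.mpr h.2.1
    rwa [show y • (p : 𝓞 L) = p from map_natCast (MulSemiringAction.toRingHom _ (𝓞 L) y) p] at this
  · rw [show (y * σ * y⁻¹) • x - x ^ p = y • (σ • (y⁻¹ • x) - (y⁻¹ • x) ^ p) by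
      rw [smul_sub, smul_pow', smul_inv_smul, mul_smul, mul_smul]]
    exact Ideal.smul_mem_pointwise_smul_iff.mpr (h.2.2 _)

theorem under_int_eq {p : ℕ} (hp : p.Prime) {Q : Ideal (𝓞 L)} (hQ : Q.IsPrime)
    (hpQ : (p : 𝓞 L) ∈ Q) : Q.under ℤ = Ideal.span {(p : ℤ)} := by
  have hmax : (Ideal.span {(p : ℤ)}).IsMaximal :=
    PrincipalIdealRing.isMaximal_of_irreducible (Nat.prime_iff_prime_int.mp hp).irreducible
  refine (hmax.eq_of_le (Ideal.IsPrime.ne_top inferInstance) ?_).symm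
  rw [Ideal.span_singleton_le_iff_mem, Ideal.mem_comap]
  simpa using hpQ

theorem quotient_finite {p : ℕ} (hp : p.Prime) {Q : Ideal (𝓞 L)}
    (hpQ : (p : 𝓞 L) ∈ Q) : Finite (𝓞 L ⧸ Q) := by
  refine Ideal.finiteQuotientOfFreeOfNeBot Q fun h => ?_
  rw [h, Ideal.mem_bot] at hpQ
  exact Nat.cast_ne_zero.mpr hp.ne_zero hpQ

theorem exists_isFrobAt [IsGalois ℚ L] {p : ℕ} (hp : p.Prime) :
    ∃ (Q : Ideal (𝓞 L)) (σ : L ≃ₐ[ℚ] L), IsFrobAt Q σ p := by
  have hne : Ideal.span {(p : 𝓞 L)} ≠ ⊤ := by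
    intro h
    have := congrArg Ideal.absNorm h
    rw [absNorm_span_natCast, Ideal.absNorm_top] at this
    exact hp.ne_one ((Nat.pow_eq_one.mp this).resolve_right Module.finrank_pos.ne')
  obtain ⟨Q, hQ, hle⟩ := Ideal.exists_le_maximal _ hne
  have hpQ : (p : 𝓞 L) ∈ Q := hle (Ideal.mem_span_singleton_self _)
  have := quotient_finite hp hpQ
  obtain ⟨σ, hσ⟩ := IsArithFrobAt.exists_of_isInvariant ℤ (L ≃ₐ[ℚ] L) Q
  refine ⟨Q, σ, hQ.isPrime, hpQ, fun x => ?_⟩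
  have h := hσ x
  rwa [under_int_eq hp hQ.isPrime hpQ, Nat.card_congr (Int.quotientSpanNatEquivZMod p).toEquiv,
    Nat.card_zmod] at h

/-- At a separated prime the decomposition group is generated by Frobenius. -/
theorem IsFrobAt.exists_pow_eq {p : ℕ} (hp : p.Prime) (hsep : Separated L p) {Q : Ideal (𝓞 L)}
    {σ δ : L ≃ₐ[ℚ] L} (h : IsFrobAt Q σ p) (hδ : ∀ x : 𝓞 L, δ • x ∈ Q ↔ x ∈ Q) :
    ∃ k : ℕ, δ = σ ^ k := by
  have : Fact p.Prime := ⟨hp⟩
  have := quotient_finite hp h.2.1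
  have := h.1
  have : Q.IsMaximal :=
    Ideal.Quotient.maximal_of_isField _ (Finite.isField_of_domain (𝓞 L ⧸ Q))
  let _ : Field (𝓞 L ⧸ Q) := Ideal.Quotient.field Q
  have : CharP (𝓞 L ⧸ Q) p := by
    rw [CharP.charP_iff_prime_eq_zero hp, ← map_natCast (Ideal.Quotient.mk Q)]
    exact Ideal.Quotient.eq_zero_iff_mem.mpr h.2.1
  let _ : Algebra (ZMod p) (𝓞 L ⧸ Q) := ZMod.algebra _ p
  let f : 𝓞 L ⧸ Q →+* 𝓞 L ⧸ Q := Ideal.quotientMap Q (MulSemiringAction.toRingHom _ (𝓞 L) δ)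
    (fun x hx => (hδ x).mpr hx)
  have hf := RingHom.ext_zmod (f.comp (algebraMap (ZMod p) (𝓞 L ⧸ Q))) (algebraMap (ZMod p) _)
  let e : 𝓞 L ⧸ Q →ₐ[ZMod p] 𝓞 L ⧸ Q := { f with commutes' := RingHom.congr_fun hf }
  have he : Function.Bijective e := Finite.injective_iff_bijective.mp e.toRingHom.injective
  obtain ⟨n, hn⟩ := (FiniteField.bijective_frobeniusAlgEquivOfAlgebraic_pow (ZMod p) (𝓞 L ⧸ Q)).2
    (AlgEquiv.ofBijective e he)
  refine ⟨n, (hsep.eq_of_sub_mem h.1 h.2.1 hδ fun x => ?_).symm⟩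
  have h1 : ∀ m : ℕ, (σ ^ m) • x - x ^ p ^ m ∈ Q := by
    intro m
    induction m with
    | zero => simp
    | succ m ih =>
      have h2 : σ • ((σ ^ m) • x - x ^ p ^ m) ∈ Q := (h.smul_mem_iff hp _).mpr ih
      have h3 := h.2.2 (x ^ p ^ m)
      rw [← pow_mul, ← pow_succ] at h3
      rw [smul_sub, ← mul_smul, ← pow_succ'] at h2
      simpa using Q.add_mem h2 h3
  have h2 : δ • x - x ^ p ^ (n : ℕ) ∈ Q := by
    rw [← Ideal.Quotient.eq, map_pow]
    change e (Ideal.Quotient.mk Q x) = _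
    have := AlgEquiv.congr_fun hn (Ideal.Quotient.mk Q x)
    rw [AlgEquiv.coe_ofBijective] at this
    rw [← this, AlgEquiv.coe_pow, FiniteField.coe_frobeniusAlgEquivOfAlgebraic_iterate,
      ZMod.card]
  simpa using Q.sub_mem (h1 n) h2

variable [IsGalois ℚ L]

/-- The number of degree one primes of the fixed field of `H` over a separated prime. -/
theorem idealCount_fixedField_mul {p : ℕ} (hp : p.Prime) (hsep : Separated L p)
    (H : Subgroup (L ≃ₐ[ℚ] L)) {Q₀ : Ideal (𝓞 L)} {σ : L ≃ₐ[ℚ] L} (hσ : IsFrobAt Q₀ σ p) :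
    idealCount (IntermediateField.fixedField H : IntermediateField ℚ L) p * Nat.card H =
      Nat.card {y : L ≃ₐ[ℚ] L // y * σ * y⁻¹ ∈ H} := by
  classical
  set K : IntermediateField ℚ L := IntermediateField.fixedField H with hK
  have hfix : ∀ y, y ∈ H ↔ ∀ x : K, y (x : L) = x := by
    intro y
    rw [← IntermediateField.fixingSubgroup_fixedField H, IntermediateField.mem_fixingSubgroup_iff]
    exact ⟨fun h x => h x x.2, fun h x hx => h ⟨x, hx⟩⟩
  have hfix' : ∀ y ∈ H, ∀ x : 𝓞 K, y • algebraMap (𝓞 K) (𝓞 L) x = algebraMap (𝓞 K) (𝓞 L) x :=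
    fun y hy x => RingOfIntegers.ext ((hfix y).mp hy x.1)
  have := hσ.1
  have hPp : ∀ y : L ≃ₐ[ℚ] L, y * σ * y⁻¹ ∈ H →
      Ideal.absNorm ((y • Q₀).under (𝓞 K)) = p := by
    intro y hy
    have hF := hσ.conj y
    set P := (y • Q₀).under (𝓞 K) with hP
    have hPprime : P.IsPrime := inferInstance
    have hpP : (p : 𝓞 K) ∈ P := by
      rw [hP, Ideal.mem_comap, map_natCast]; exact hF.2.1
    have hfin : Finite (𝓞 K ⧸ P) := quotient_finite hp hpP
    have hroot : ∀ a : 𝓞 K ⧸ P, a ^ p = a := by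
      intro a
      obtain ⟨x, rfl⟩ := Ideal.Quotient.mk_surjective a
      rw [← map_pow, Ideal.Quotient.eq, hP, Ideal.mem_comap, map_sub, map_pow, ← neg_mem_iff,
        neg_sub]
      simpa [hfix' _ hy x] using hF.2.2 (algebraMap (𝓞 K) (𝓞 L) x)
    have hle : Nat.card (𝓞 K ⧸ P) ≤ p := natCard_le_of_forall_pow_eq hp.one_lt hroot
    rw [Ideal.absNorm_apply, Submodule.cardQuot_apply]
    have hdvd : Ideal.absNorm P ∣ p ^ Module.finrank ℤ (𝓞 K) := by
      rw [← absNorm_span_natCast (K := K)]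
      exact Ideal.absNorm_dvd_absNorm_of_le ((Ideal.span_singleton_le_iff_mem _).mpr hpP)
    obtain ⟨i, -, hi⟩ := (Nat.dvd_prime_pow hp).mp hdvd
    have hi0 : i ≠ 0 := by
      rintro rfl
      rw [pow_zero, Ideal.absNorm_eq_one_iff] at hi
      exact hPprime.ne_top hi
    rw [Ideal.absNorm_apply, Submodule.cardQuot_apply] at hi
    exact le_antisymm hle (hi ▸ Nat.le_self_pow hi0 p)
  let Φ : {y : L ≃ₐ[ℚ] L // y * σ * y⁻¹ ∈ H} → {I : Ideal (𝓞 K) // Ideal.absNorm I = p} :=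
    fun y => ⟨(y.1 • Q₀).under (𝓞 K), hPp y.1 y.2⟩
  -- surjectivity
  have hsurj : Function.Surjective Φ := by
    rintro ⟨I, hI⟩
    have hIp : I.IsPrime :=
      Ideal.isPrime_of_irreducible_absNorm (by rw [hI]; exact hp)
    obtain ⟨Q, hQ, hQI⟩ : ∃ Q : Ideal (𝓞 L), Q.IsPrime ∧ Q.under (𝓞 K) = I := by
      obtain ⟨⟨Q, hQ, hQo⟩⟩ := (inferInstance : Nonempty (Ideal.primesOver I (𝓞 L)))
      exact ⟨Q, hQ, hQo.over.symm⟩
    have hpI : (p : 𝓞 K) ∈ I := hI ▸ Ideal.absNorm_mem I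
    have hpQ : (p : 𝓞 L) ∈ Q := by
      have : (p : 𝓞 K) ∈ Q.under (𝓞 K) := hQI ▸ hpI
      rwa [Ideal.mem_comap, map_natCast] at this
    obtain ⟨y, hy⟩ := Algebra.IsInvariant.exists_smul_of_under_eq ℤ (𝓞 L) (L ≃ₐ[ℚ] L) Q₀ Q
      (by rw [under_int_eq hp hσ.1 hσ.2.1, under_int_eq hp hQ hpQ])
    have := quotient_finite hp hpQ
    obtain ⟨τ, hτ⟩ := IsArithFrobAt.exists_of_isInvariant (𝓞 K) (L ≃ₐ[K] L) Q
    have hF : IsFrobAt Q (τ.restrictScalars ℚ) p := by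
      refine ⟨hQ, hpQ, fun x => ?_⟩
      have h := hτ x
      rw [hQI, ← Submodule.cardQuot_apply, ← Ideal.absNorm_apply, hI] at h
      exact h
    have hcond : y * σ * y⁻¹ ∈ H := by
      rw [(hy ▸ hσ.conj y : IsFrobAt Q (y * σ * y⁻¹) p).unique hp hsep hF, hfix]
      exact fun x => τ.commutes x
    refine ⟨⟨y, hcond⟩, Subtype.ext ?_⟩
    change (y • Q₀).under (𝓞 K) = I
    rw [← hy, hQI]
  -- fibres
  have hfib : ∀ I, Nat.card {y // Φ y = I} = Nat.card H := by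
    intro I
    obtain ⟨⟨y₀, hy₀⟩, hI⟩ := hsurj I
    have hmem : ∀ h : H, (h.1 * y₀) * σ * (h.1 * y₀)⁻¹ ∈ H := fun h => by
      rw [show h.1 * y₀ * σ * (h.1 * y₀)⁻¹ = h.1 * (y₀ * σ * y₀⁻¹) * h.1⁻¹ by group]
      exact H.mul_mem (H.mul_mem h.2 hy₀) (H.inv_mem h.2)
    have hΦ : ∀ h : H, Φ ⟨h.1 * y₀, hmem h⟩ = I := by
      intro h
      rw [← hI]
      refine Subtype.ext (Ideal.ext fun x => ?_)
      change _ ∈ (h.1 * y₀) • Q₀ ↔ _ ∈ y₀ • Q₀
      rw [mul_smul]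
      nth_rw 1 [← hfix' h.1 h.2 x]
      exact Ideal.smul_mem_pointwise_smul_iff
    refine (Nat.card_eq_of_bijective (fun h : H => (⟨⟨h.1 * y₀, hmem h⟩, hΦ h⟩ : {y // Φ y = I}))
      ⟨fun a b hab => Subtype.ext (mul_right_cancel
        (congrArg (fun z : {y // Φ y = I} => z.1.1) hab)), ?_⟩).symm
    rintro ⟨⟨y, hy⟩, hyI⟩
    have hunder : (y₀ • Q₀).under (𝓞 K) = (y • Q₀).under (𝓞 K) :=
      congrArg Subtype.val (hI.trans hyI.symm)
    obtain ⟨τ, hτ⟩ := Algebra.IsInvariant.exists_smul_of_under_eq (𝓞 K) (𝓞 L) (L ≃ₐ[K] L) _ _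
      hunder
    set h : L ≃ₐ[ℚ] L := τ.restrictScalars ℚ with hh
    have hhH : h ∈ H := (hfix h).mpr fun x => τ.commutes x
    have hτ' : y • Q₀ = h • (y₀ • Q₀) := by
      rw [hτ]; rfl
    have hstab : ∀ x : 𝓞 L, ((h * y₀)⁻¹ * y) • x ∈ Q₀ ↔ x ∈ Q₀ := by
      intro x
      rw [← Ideal.smul_mem_pointwise_smul_iff (a := h * y₀), ← mul_smul, mul_inv_cancel_left,
        mul_smul h y₀, ← hτ', Ideal.smul_mem_pointwise_smul_iff]
    obtain ⟨k, hk⟩ := hσ.exists_pow_eq hp hsep hstab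
    have hy_eq : y = h * (y₀ * σ * y₀⁻¹) ^ k * y₀ := by
      rw [conj_pow, ← hk]
      group
    refine ⟨⟨h * (y₀ * σ * y₀⁻¹) ^ k, H.mul_mem hhH (H.pow_mem hy₀ k)⟩, ?_⟩
    exact Subtype.ext (Subtype.ext hy_eq.symm)
  have := idealCount_finite (K := K) p
  cases nonempty_fintype {I : Ideal (𝓞 K) // Ideal.absNorm I = p}
  rw [← Nat.card_congr (Equiv.sigmaFiberEquiv Φ), Nat.card_sigma,
    Finset.sum_congr rfl fun I _ => hfib I, Finset.sum_const, smul_eq_mul, Finset.card_univ,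
    ← Nat.card_eq_fintype_card]
  rfl

open ArithmeticFunction in
/-- **Frobenius's density theorem**: infinitely many primes have Frobenius elements generating
a conjugate of the given cyclic subgroup. -/
theorem exists_prime_isFrobAt_zpowers (g : L ≃ₐ[ℚ] L) (S : Finset ℕ) :
    ∃ p : ℕ, p.Prime ∧ p ∉ S ∧ Separated L p ∧ ∀ (Q : Ideal (𝓞 L)) (σ : L ≃ₐ[ℚ] L),
      IsFrobAt Q σ p →
        ∃ y : L ≃ₐ[ℚ] L, Subgroup.zpowers (y * σ * y⁻¹) = Subgroup.zpowers g := by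
  classical
  by_contra! hcon
  set H : ℕ → Subgroup (L ≃ₐ[ℚ] L) := fun d => Subgroup.zpowers (g ^ d)
  let K : ℕ → IntermediateField ℚ L := fun d => IntermediateField.fixedField (H d)
  let c : ℕ → ℝ := fun d => (moebius d : ℝ) * Nat.card (H d)
  let D := (orderOf g).divisors
  let U : Finset Nat.Primes := ((S ∪ (finite_not_separated L).toFinset).subtype Nat.Prime)
  let Φ : Nat.Primes → ℝ := fun p => ∑ d ∈ D, c d * idealCount (K d) p
  -- the coefficient vanishes outside a finite set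
  have hzero : ∀ p : Nat.Primes, p ∉ U → Φ p = 0 := by
    rintro ⟨p, hp⟩ hpU
    have hU : ∀ (h : p ∈ S ∪ (finite_not_separated L).toFinset), False :=
      fun h => hpU (Finset.mem_subtype.mpr h)
    have hpS : p ∉ S := fun h => hU (Finset.mem_union_left _ h)
    have hsep : Separated L p := by
      by_contra h
      exact hU (Finset.mem_union_right _ ((Set.Finite.mem_toFinset _).mpr ⟨hp, h⟩))
    obtain ⟨Q, σ, hσ, hne⟩ := hcon p hp hpS hsep
    have hint : ∑ d ∈ D, moebius d * ((idealCount (K d) p * Nat.card (H d) : ℕ) : ℤ) = 0 := by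
      calc _ = ∑ d ∈ D, moebius d *
            ∑ y : L ≃ₐ[ℚ] L, (if y * σ * y⁻¹ ∈ H d then 1 else 0 : ℤ) := by
            refine Finset.sum_congr rfl fun d _ => congrArg _ ?_
            rw [idealCount_fixedField_mul hp hsep (H d) hσ, Nat.card_eq_fintype_card,
              Fintype.card_subtype, Finset.card_filter]
            push_cast
            rfl
        _ = ∑ y : L ≃ₐ[ℚ] L, ∑ d ∈ D,
            moebius d * (if y * σ * y⁻¹ ∈ H d then 1 else 0 : ℤ) := by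
            simp only [Finset.mul_sum]
            exact Finset.sum_comm
        _ = 0 := Finset.sum_eq_zero fun y _ => by
            rw [sum_moebius_mem_zpowers, if_neg (hne y)]
    calc Φ ⟨p, hp⟩
        = ((∑ d ∈ D, moebius d * ((idealCount (K d) p * Nat.card (H d) : ℕ) : ℤ) : ℤ) : ℝ) := by
          simp only [Φ, c]
          push_cast
          exact Finset.sum_congr rfl fun d _ => by ring
      _ = 0 := by rw [hint, Int.cast_zero]
  -- the total weight is positive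
  have hpos : 1 ≤ ∑ d ∈ D, c d := by
    have h := sum_moebius_card_zpowers g
    have h1 : (1 : ℤ) ≤ (Nat.card {x : L ≃ₐ[ℚ] L //
        Subgroup.zpowers x = Subgroup.zpowers g} : ℤ) := by
      have : Nonempty {x : L ≃ₐ[ℚ] L // Subgroup.zpowers x = Subgroup.zpowers g} := ⟨⟨g, rfl⟩⟩
      exact_mod_cast Nat.card_pos
    rw [← h] at h1
    have h2 : (1 : ℝ) ≤ (((∑ d ∈ (orderOf g).divisors,
        moebius d * (Nat.card (Subgroup.zpowers (g ^ d)) : ℤ)) : ℤ) : ℝ) := by exact_mod_cast h1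
    simpa [c, D, H] using h2
  choose B hB using fun d => exists_bound_primeSum (K d)
  have hev : ∀ᶠ s in 𝓝[>] (1 : ℝ),
      (∀ d ∈ D, Summable (fun p : Nat.Primes => zetaTerm (K d) s p) ∧
        |(∑' p : Nat.Primes, zetaTerm (K d) s p) + Real.log (s - 1)| ≤ B d) ∧
      1 < s ∧ Real.log (s - 1) <
        -((∑ d ∈ D, |c d| * B d) + ∑ p ∈ U, |Φ p|) - 1 := by
    refine ((Finset.eventually_all D).mpr fun d _ => hB d).and (Filter.Eventually.and self_mem_nhdsWithin ?_)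
    have ht : Tendsto (fun s : ℝ => Real.log (s - 1)) (𝓝[>] 1) atBot := by
      refine Real.tendsto_log_nhdsGT_zero.comp ?_
      refine tendsto_nhdsWithin_iff.mpr ⟨?_, ?_⟩
      · exact tendsto_nhdsWithin_of_tendsto_nhds
          (Continuous.tendsto' (f := fun s : ℝ => s - 1) (by fun_prop) (1 : ℝ) 0 (sub_self 1))
      · filter_upwards [self_mem_nhdsWithin] with s (hs : 1 < s)
        exact sub_pos.mpr hs
    exact ht.eventually (eventually_lt_atBot _)
  obtain ⟨s, hs, hs1, hlog⟩ := hev.exists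
  have hsum : ∑ d ∈ D, c d * ∑' p : Nat.Primes, zetaTerm (K d) s p =
      ∑ p ∈ U, Φ p * ((p : ℕ) : ℝ) ^ (-s) := by
    rw [Finset.sum_congr rfl fun d hd => ((hs d hd).1.tsum_mul_left (c d)).symm,
      ← Summable.tsum_finsetSum fun d hd => (hs d hd).1.mul_left (c d)]
    rw [tsum_eq_sum (s := U) fun p hp => ?_]
    · refine Finset.sum_congr rfl fun p _ => ?_
      simp only [zetaTerm, Φ, Finset.sum_mul]
      exact Finset.sum_congr rfl fun d _ => by ring
    · have := hzero p hp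
      simp only [Φ] at this
      calc ∑ d ∈ D, c d * zetaTerm (K d) s p
          = (∑ d ∈ D, c d * idealCount (K d) p) * ((p : ℕ) : ℝ) ^ (-s) := by
            rw [Finset.sum_mul]
            exact Finset.sum_congr rfl fun d _ => by simp only [zetaTerm]; ring
        _ = 0 := by rw [this, zero_mul]
  have hUb : |∑ p ∈ U, Φ p * ((p : ℕ) : ℝ) ^ (-s)| ≤ ∑ p ∈ U, |Φ p| := by
    refine (Finset.abs_sum_le_sum_abs _ _).trans (Finset.sum_le_sum fun p _ => ?_)
    rw [abs_mul, abs_of_nonneg (Real.rpow_nonneg (Nat.cast_nonneg _) _)]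
    refine mul_le_of_le_one_right (abs_nonneg _)
      (Real.rpow_le_one_of_one_le_of_nonpos ?_ (by linarith))
    exact_mod_cast p.2.one_lt.le
  have hDb : |(∑ d ∈ D, c d) * Real.log (s - 1) + ∑ p ∈ U, Φ p * ((p : ℕ) : ℝ) ^ (-s)| ≤
      ∑ d ∈ D, |c d| * B d := by
    rw [← hsum, Finset.sum_mul, ← Finset.sum_add_distrib]
    refine (Finset.abs_sum_le_sum_abs _ _).trans (Finset.sum_le_sum fun d hd => ?_)
    rw [← mul_add, abs_mul, add_comm]
    exact mul_le_mul_of_nonneg_left (hs d hd).2 (abs_nonneg _)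
  have hneg : Real.log (s - 1) < 0 := by
    have : 0 ≤ ∑ p ∈ U, |Φ p| := Finset.sum_nonneg fun _ _ => abs_nonneg _
    have := (abs_nonneg _).trans hDb
    linarith
  have hle : (∑ d ∈ D, c d) * Real.log (s - 1) ≤ Real.log (s - 1) := by
    nlinarith
  have := abs_le.mp hUb
  have := abs_le.mp hDb
  linarith

end Fermat.Agent.Density
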