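import Mathlib.NumberTheory.NumberField.DedekindZeta
import Mathlib.NumberTheory.EulerProduct.Basic
import Mathlib.Analysis.SpecialFunctions.Log.Summable
import Mathlib.Analysis.SpecificLimits.Normed

/-!
# The logarithm of the Dedekind zeta function near `s = 1`

`∑_p a(p) p ^ (-s) = log (1 / (s - 1)) + O(1)`, `a(p)` the number of ideals of norm `p`.
-/

set_option autoImplicit false
set_option linter.unusedSectionVars false

noncomputable section

namespace Fermat.Agent.Density

open Filter Topology UniqueFactorizationMonoid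
open _root_.Ideal hiding mul_sup sup_mul prod_normalizedFactors_eq_self mem_normalizedFactors_iff
open NumberField

variable (K : Type*) [Field K] [NumberField K]

/-- The number of ideals of norm `n`. -/
def idealCount (n : ℕ) : ℕ := Nat.card {I : Ideal (𝓞 K) // absNorm I = n}

instance idealCount_finite (n : ℕ) : Finite {I : Ideal (𝓞 K) // absNorm I = n} :=
  (Ideal.finite_setOfPred_absNorm_eq n).to_subtype

theorem idealCount_one : idealCount K 1 = 1 := by
  have : Unique {I : Ideal (𝓞 K) // absNorm I = 1} :=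
    ⟨⟨⟨⊤, absNorm_top⟩⟩, fun I => Subtype.ext (absNorm_eq_one_iff.mp I.2)⟩
  exact Nat.card_unique

variable {K}

theorem natCast_sup_natCast_eq_top {m n : ℕ} (h : m.Coprime n) :
    span {(m : 𝓞 K)} ⊔ span {(n : 𝓞 K)} = ⊤ := by
  rw [eq_top_iff_one]
  obtain ⟨a, b, hab⟩ := (Nat.isCoprime_iff_coprime.mpr h).map (Int.castRingHom (𝓞 K))
  simp only [eq_intCast, Int.cast_natCast] at hab
  rw [← hab]
  exact add_mem (Submodule.mem_sup_left (mem_span_singleton.mpr (dvd_mul_left _ _)))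
    (Submodule.mem_sup_right (mem_span_singleton.mpr (dvd_mul_left _ _)))

theorem span_natCast_le {I : Ideal (𝓞 K)} {m : ℕ} (h : absNorm I = m) :
    span {(m : 𝓞 K)} ≤ I := by
  rw [span_singleton_le_iff_mem, ← h]
  exact absNorm_mem I

variable (K) in
/-- Ideal counting is multiplicative. -/
theorem idealCount_mul {m n : ℕ} (h : m.Coprime n) :
    idealCount K (m * n) = idealCount K m * idealCount K n := by
  have htop := natCast_sup_natCast_eq_top (K := K) h
  let φ : {I : Ideal (𝓞 K) // absNorm I = m} × {I : Ideal (𝓞 K) // absNorm I = n} →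
      {I : Ideal (𝓞 K) // absNorm I = m * n} :=
    fun IJ => ⟨IJ.1.1 * IJ.2.1, by rw [map_mul, IJ.1.2, IJ.2.2]⟩
  have key : ∀ (I J : Ideal (𝓞 K)) (m n : ℕ), absNorm I = m → absNorm J = n →
      span {(m : 𝓞 K)} ⊔ span {(n : 𝓞 K)} = ⊤ → I * J ⊔ span {(m : 𝓞 K)} = I := by
    intro I J m n hI hJ htop
    refine le_antisymm (sup_le Ideal.mul_le_left (span_natCast_le hI)) ?_
    calc I = I * (span {(m : 𝓞 K)} ⊔ span {(n : 𝓞 K)}) := by rw [htop, mul_top]
      _ ≤ _ := by
        rw [Ideal.mul_sup]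
        exact sup_le (le_sup_of_le_right Ideal.mul_le_right)
          (le_sup_of_le_left (mul_mono le_rfl (span_natCast_le hJ)))
  have hinj : Function.Injective φ := by
    rintro ⟨⟨I, hI⟩, ⟨J, hJ⟩⟩ ⟨⟨I', hI'⟩, ⟨J', hJ'⟩⟩ hEq
    have hEq' : I * J = I' * J' := congrArg Subtype.val hEq
    have e1 : I = I' := by
      rw [← key I J m n hI hJ htop, ← key I' J' m n hI' hJ' htop, hEq']
    have e2 : J = J' := by
      rw [← key J I n m hJ hI (by rwa [sup_comm]), ← key J' I' n m hJ' hI' (by rwa [sup_comm]),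
        mul_comm J, mul_comm J', hEq']
    simp [e1, e2]
  have hsurj : Function.Surjective φ := by
    rintro ⟨A, hA⟩
    have hmn : span {(m : 𝓞 K)} * span {(n : 𝓞 K)} ≤ A := by
      rw [span_singleton_mul_span_singleton, ← Nat.cast_mul]
      exact span_natCast_le hA
    have hprod : (A ⊔ span {(m : 𝓞 K)}) * (A ⊔ span {(n : 𝓞 K)}) = A := by
      refine le_antisymm ?_ ?_
      · rw [Ideal.sup_mul, Ideal.mul_sup, Ideal.mul_sup]
        exact sup_le (sup_le Ideal.mul_le_right Ideal.mul_le_left)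
          (sup_le Ideal.mul_le_right hmn)
      · calc A = A * span {(m : 𝓞 K)} ⊔ A * span {(n : 𝓞 K)} := by
              rw [← Ideal.mul_sup, htop, mul_top]
          _ ≤ _ := sup_le ((mul_comm A (span {(m : 𝓞 K)})).le.trans
                (mul_mono le_sup_right le_sup_left))
              (mul_mono le_sup_left le_sup_right)
    have aux : ∀ k l : ℕ, k.Coprime l → absNorm A = k * l →
        absNorm (A ⊔ span {(k : 𝓞 K)}) ∣ k := by
      intro k l hkl hAkl
      have h1 : absNorm (A ⊔ span {(k : 𝓞 K)}) ∣ k ^ Module.finrank ℤ (𝓞 K) := by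
        refine (absNorm_dvd_absNorm_of_le le_sup_right).trans (dvd_of_eq ?_)
        rw [absNorm_span_singleton,
          show (k : 𝓞 K) = algebraMap ℤ (𝓞 K) k by simp, Algebra.norm_algebraMap,
          Int.natAbs_pow, Int.natAbs_natCast]
      have h2 : absNorm (A ⊔ span {(k : 𝓞 K)}) ∣ k * l :=
        hAkl ▸ absNorm_dvd_absNorm_of_le le_sup_left
      exact (Nat.Coprime.coprime_dvd_left h1 (hkl.pow_left _)).dvd_of_dvd_mul_right h2
    have d1 := aux m n h hA
    have d2 := aux n m h.symm (by rw [hA, mul_comm])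
    have hN : absNorm (A ⊔ span {(m : 𝓞 K)}) * absNorm (A ⊔ span {(n : 𝓞 K)}) = m * n := by
      rw [← map_mul, hprod, hA]
    rcases Nat.eq_zero_or_pos m with rfl | hm
    · have hn : n = 1 := Nat.coprime_zero_left n |>.mp h
      subst hn
      refine ⟨(⟨A, by simpa using hA⟩, ⟨⊤, absNorm_top⟩), ?_⟩
      simp [φ]
    rcases Nat.eq_zero_or_pos n with rfl | hn
    · have hm1 : m = 1 := Nat.coprime_zero_right m |>.mp h
      subst hm1
      refine ⟨(⟨⊤, absNorm_top⟩, ⟨A, by simpa using hA⟩), ?_⟩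
      simp [φ]
    obtain ⟨e1, e2⟩ : absNorm (A ⊔ span {(m : 𝓞 K)}) = m ∧
        absNorm (A ⊔ span {(n : 𝓞 K)}) = n := by
      have l1 := Nat.le_of_dvd hm d1
      have l2 := Nat.le_of_dvd hn d2
      constructor <;> nlinarith
    exact ⟨(⟨_, e1⟩, ⟨_, e2⟩), Subtype.ext hprod⟩
  rw [idealCount, idealCount, idealCount, ← Nat.card_prod]
  exact (Nat.card_eq_of_bijective φ ⟨hinj, hsurj⟩).symm

/-- An ideal of norm `p ^ e` has at most `e` prime factors. -/
theorem card_normalizedFactors_le {p e : ℕ} (hp : p.Prime) {I : Ideal (𝓞 K)}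
    (hI : absNorm I = p ^ e) : (normalizedFactors I).card ≤ e := by
  have hI0 : I ≠ 0 := by
    intro h
    rw [h, zero_eq_bot, absNorm_bot] at hI
    exact pow_ne_zero e hp.ne_zero hI.symm
  have h1 : ((normalizedFactors I).map absNorm).prod = p ^ e := by
    rw [← map_multiset_prod, prod_normalizedFactors_eq_self hI0, hI]
  have hall : ∀ x ∈ (normalizedFactors I).map absNorm, p ≤ x := by
    intro x hx
    obtain ⟨P, hP, rfl⟩ := Multiset.mem_map.mp hx
    have hd : absNorm P ∣ p ^ e :=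
      h1 ▸ Multiset.dvd_prod (Multiset.mem_map_of_mem _ hP)
    obtain ⟨i, hi, he⟩ := (Nat.dvd_prime_pow hp).mp hd
    rcases Nat.eq_zero_or_pos i with rfl | hipos
    · rw [pow_zero, absNorm_eq_one_iff] at he
      exact absurd (he ▸ Ideal.isPrime_of_prime (prime_of_normalized_factor P hP))
        fun h => h.ne_top rfl
    · rw [he]; exact Nat.le_self_pow hipos.ne' p
  have h2 : p ^ ((normalizedFactors I).map absNorm).card ≤ ((normalizedFactors I).map absNorm).prod :=
    Multiset.pow_card_le_prod hall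
  rw [h1, Multiset.card_map] at h2
  exact (Nat.pow_le_pow_iff_right hp.one_lt).mp h2

theorem absNorm_span_natCast (p : ℕ) :
    absNorm (span {(p : 𝓞 K)}) = p ^ Module.finrank ℤ (𝓞 K) := by
  rw [absNorm_span_singleton, show (p : 𝓞 K) = algebraMap ℤ (𝓞 K) p by simp,
    Algebra.norm_algebraMap, Int.natAbs_pow, Int.natAbs_natCast]

variable (K) in
theorem idealCount_pow_le {p : ℕ} (hp : p.Prime) (e : ℕ) :
    idealCount K (p ^ e) ≤ (e + 1) ^ Module.finrank ℤ (𝓞 K) := by
  classical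
  have hp0 : span {(p : 𝓞 K)} ≠ 0 := by
    simpa [zero_eq_bot, span_singleton_eq_bot] using hp.ne_zero
  set T := (normalizedFactors (span {(p : 𝓞 K)})).toFinset with hT
  have hTcard : T.card ≤ Module.finrank ℤ (𝓞 K) :=
    (Multiset.toFinset_card_le _).trans (card_normalizedFactors_le hp (absNorm_span_natCast p))
  have hne : ∀ I : {I : Ideal (𝓞 K) // absNorm I = p ^ e}, I.1 ≠ 0 := by
    intro I h
    have := I.2
    rw [h, zero_eq_bot, absNorm_bot] at this
    exact pow_ne_zero e hp.ne_zero this.symm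
  have hmem : ∀ I : {I : Ideal (𝓞 K) // absNorm I = p ^ e}, ∀ P ∈ normalizedFactors I.1,
      P ∈ T := by
    intro I P hP
    have hPp : P.IsPrime := Ideal.isPrime_of_prime (prime_of_normalized_factor P hP)
    have hle : I.1 ≤ P := le_of_dvd (dvd_of_mem_normalizedFactors hP)
    have : (p : 𝓞 K) ^ e ∈ P := by
      apply hle
      simpa [I.2] using absNorm_mem I.1
    rw [hT, Multiset.mem_toFinset, mem_normalizedFactors_iff hp0]
    exact ⟨prime_of_normalized_factor P hP,
      dvd_span_singleton.mpr (hPp.mem_of_pow_mem e this)⟩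
  let φ : {I : Ideal (𝓞 K) // absNorm I = p ^ e} → (T → Fin (e + 1)) := fun I P =>
    ⟨(normalizedFactors I.1).count P.1, Nat.lt_succ_of_le
      ((Multiset.count_le_card _ _).trans (card_normalizedFactors_le hp I.2))⟩
  have hφ : Function.Injective φ := by
    intro I J hIJ
    have hm : normalizedFactors I.1 = normalizedFactors J.1 := by
      refine Multiset.ext.mpr fun P => ?_
      by_cases hP : P ∈ T
      · exact congrArg Fin.val (congrFun hIJ ⟨P, hP⟩)
      · rw [Multiset.count_eq_zero.mpr fun h => hP (hmem I P h),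
          Multiset.count_eq_zero.mpr fun h => hP (hmem J P h)]
    exact Subtype.ext (by
      rw [← prod_normalizedFactors_eq_self (hne I), hm, prod_normalizedFactors_eq_self (hne J)])
  refine (Nat.card_le_card_of_injective φ hφ).trans ?_
  rw [Nat.card_fun, Nat.card_fin, Nat.card_eq_fintype_card, Fintype.card_coe]
  exact Nat.pow_le_pow_right (Nat.succ_pos e) hTcard

variable (K)

/-- Coefficients of the Dedekind zeta series at a real argument. -/
def zetaTerm (s : ℝ) (n : ℕ) : ℝ := idealCount K n * (n : ℝ) ^ (-s)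

theorem zetaTerm_nonneg (s : ℝ) (n : ℕ) : 0 ≤ zetaTerm K s n := by
  unfold zetaTerm; positivity

theorem zetaTerm_zero {s : ℝ} (hs : s ≠ 0) : zetaTerm K s 0 = 0 := by
  simp [zetaTerm, Real.zero_rpow (neg_ne_zero.mpr hs)]

theorem zetaTerm_one (s : ℝ) : zetaTerm K s 1 = 1 := by
  simp [zetaTerm, idealCount_one]

theorem zetaTerm_mul (s : ℝ) {m n : ℕ} (h : m.Coprime n) :
    zetaTerm K s (m * n) = zetaTerm K s m * zetaTerm K s n := by
  simp only [zetaTerm, idealCount_mul K h, Nat.cast_mul]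
  rw [Real.mul_rpow (Nat.cast_nonneg m) (Nat.cast_nonneg n)]
  ring

theorem dedekindZeta_eq_tsum {s : ℝ} (hs : s ≠ 0) :
    dedekindZeta K s = ((∑' n, zetaTerm K s n : ℝ) : ℂ) := by
  rw [Complex.ofReal_tsum, dedekindZeta, LSeries]
  refine tsum_congr fun n => ?_
  rcases eq_or_ne n 0 with rfl | hn
  · simp [zetaTerm_zero K hs]
  · rw [LSeries.term_of_ne_zero hn, zetaTerm, idealCount, Complex.ofReal_mul,
      Complex.ofReal_natCast, Real.rpow_neg (Nat.cast_nonneg n), Complex.ofReal_inv,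
      Complex.ofReal_cpow (Nat.cast_nonneg n), Complex.ofReal_natCast, div_eq_mul_inv]

theorem tendsto_sub_one_mul_tsum_zetaTerm :
    Tendsto (fun s : ℝ => (s - 1) * ∑' n, zetaTerm K s n) (𝓝[>] 1)
      (𝓝 (dedekindZeta_residue K)) := by
  have h := ((Complex.continuous_re.tendsto _).comp
    (tendsto_sub_one_mul_dedekindZeta_nhdsGT K))
  rw [Complex.ofReal_re] at h
  refine h.congr' ?_
  filter_upwards [self_mem_nhdsWithin] with s (hs : 1 < s)
  simp only [Function.comp_apply, dedekindZeta_eq_tsum K (ne_of_gt (lt_trans one_pos hs))]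
  rw [← Complex.ofReal_one, ← Complex.ofReal_sub, ← Complex.ofReal_mul, Complex.ofReal_re]

theorem eventually_zeta_pos :
    ∀ᶠ s in 𝓝[>] (1 : ℝ), Summable (zetaTerm K s) ∧ 0 < ∑' n, zetaTerm K s n := by
  filter_upwards [(tendsto_sub_one_mul_tsum_zetaTerm K).eventually
    (lt_mem_nhds (dedekindZeta_residue_pos K)), self_mem_nhdsWithin] with s hs (h1 : 1 < s)
  have hpos : 0 < ∑' n, zetaTerm K s n := pos_of_mul_pos_right hs (by linarith)
  refine ⟨?_, hpos⟩
  by_contra hns
  rw [tsum_eq_zero_of_not_summable hns] at hpos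
  exact lt_irrefl _ hpos

/-- A uniform bound for the tail of all Euler factors. -/
def tailConst : ℝ := ∑' e : ℕ, ((e : ℝ) + 3) ^ Module.finrank ℤ (𝓞 K) * (1 / 2) ^ e

theorem summable_tailConst :
    Summable fun e : ℕ => ((e : ℝ) + 3) ^ Module.finrank ℤ (𝓞 K) * (1 / 2) ^ e := by
  set d := Module.finrank ℤ (𝓞 K)
  have h := summable_pow_mul_geometric_of_norm_lt_one (R := ℝ) d (r := 1 / 2) (by norm_num)
  have h' := ((summable_nat_add_iff 3).mpr h).mul_left ((2 : ℝ) ^ 3)
  refine h'.congr fun e => ?_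
  push_cast
  rw [pow_add]
  ring

theorem rpow_neg_le_pow_neg {p : ℕ} (hp : p.Prime) {s : ℝ} (hs : 1 < s) (k : ℕ) :
    (((p ^ k : ℕ) : ℝ)) ^ (-s) ≤ ((p : ℝ) ^ k)⁻¹ := by
  have h1 : (1 : ℝ) ≤ (p : ℝ) ^ k := one_le_pow₀ (by exact_mod_cast hp.one_lt.le)
  rw [Nat.cast_pow]
  calc ((p : ℝ) ^ k) ^ (-s) ≤ ((p : ℝ) ^ k) ^ (-1 : ℝ) :=
        Real.rpow_le_rpow_of_exponent_le h1 (by linarith)
    _ = _ := Real.rpow_neg_one _

theorem zetaTerm_pow_add_two_le {p : ℕ} (hp : p.Prime) {s : ℝ} (hs : 1 < s) (e : ℕ) :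
    zetaTerm K s (p ^ (e + 2)) ≤
      ((p : ℝ) ^ 2)⁻¹ * (((e : ℝ) + 3) ^ Module.finrank ℤ (𝓞 K) * (1 / 2) ^ e) := by
  have ha : (idealCount K (p ^ (e + 2)) : ℝ) ≤ ((e : ℝ) + 3) ^ Module.finrank ℤ (𝓞 K) := by
    calc (idealCount K (p ^ (e + 2)) : ℝ)
        ≤ (((e + 2 + 1) ^ Module.finrank ℤ (𝓞 K) : ℕ) : ℝ) := by
          exact_mod_cast idealCount_pow_le K hp (e + 2)
      _ = _ := by push_cast; ring_nf
  have h2 : ((p : ℝ) ^ e)⁻¹ ≤ (1 / 2) ^ e := by
    rw [one_div, inv_pow]
    gcongr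
    exact_mod_cast hp.two_le
  calc zetaTerm K s (p ^ (e + 2))
      ≤ ((e : ℝ) + 3) ^ Module.finrank ℤ (𝓞 K) * ((p : ℝ) ^ (e + 2))⁻¹ :=
        mul_le_mul ha (rpow_neg_le_pow_neg hp hs _) (by positivity) (by positivity)
    _ = ((p : ℝ) ^ 2)⁻¹ * (((e : ℝ) + 3) ^ Module.finrank ℤ (𝓞 K) * ((p : ℝ) ^ e)⁻¹) := by
        rw [pow_add, mul_inv]; ring
    _ ≤ _ := by gcongr

/-- The constant bounding the difference between an Euler factor's log and its first term. -/
def factorConst : ℝ := tailConst K + ((2 : ℝ) ^ Module.finrank ℤ (𝓞 K) + tailConst K) ^ 2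

theorem tailConst_nonneg : 0 ≤ tailConst K := tsum_nonneg fun e => by positivity

theorem log_factor_approx {p : ℕ} (hp : p.Prime) {s : ℝ} (hs : 1 < s)
    (hsum : Summable (zetaTerm K s)) :
    0 < ∑' e, zetaTerm K s (p ^ e) ∧
      |Real.log (∑' e, zetaTerm K s (p ^ e)) - zetaTerm K s p| ≤
        factorConst K / (p : ℝ) ^ 2 := by
  have hp0 : (0 : ℝ) < p := by exact_mod_cast hp.pos
  have hS : Summable fun e => zetaTerm K s (p ^ e) :=
    hsum.comp_injective (Nat.pow_right_injective hp.two_le)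
  set R := ∑' e, zetaTerm K s (p ^ (e + 2)) with hR
  have hsplit : ∑' e, zetaTerm K s (p ^ e) = 1 + (zetaTerm K s p + R) := by
    rw [← hS.sum_add_tsum_nat_add 2, hR]
    simp [Finset.sum_range_succ, zetaTerm_one, add_assoc]
  have hR0 : 0 ≤ R := tsum_nonneg fun e => zetaTerm_nonneg K s _
  have hRle : R ≤ ((p : ℝ) ^ 2)⁻¹ * tailConst K := by
    rw [tailConst, ← tsum_mul_left]
    exact ((summable_nat_add_iff 2).mpr hS).tsum_le_tsum (zetaTerm_pow_add_two_le K hp hs)
      ((summable_tailConst K).mul_left _)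
  have hx1 : zetaTerm K s p ≤ (2 : ℝ) ^ Module.finrank ℤ (𝓞 K) * (p : ℝ)⁻¹ := by
    have := rpow_neg_le_pow_neg hp hs 1
    rw [pow_one, pow_one] at this
    have ha := idealCount_pow_le K hp 1
    rw [pow_one] at ha
    refine mul_le_mul ?_ this (by positivity) (by positivity)
    exact_mod_cast ha
  have hterm0 := zetaTerm_nonneg K s p
  set x := zetaTerm K s p + R with hx
  have hxle : x ≤ ((2 : ℝ) ^ Module.finrank ℤ (𝓞 K) + tailConst K) * (p : ℝ)⁻¹ := by
    have : ((p : ℝ) ^ 2)⁻¹ * tailConst K ≤ (p : ℝ)⁻¹ * tailConst K := by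
      gcongr
      · exact tailConst_nonneg K
      · exact le_self_pow₀ (by exact_mod_cast hp.one_lt.le) two_ne_zero
    rw [add_mul]; linarith
  have hxsq : x ^ 2 ≤ ((2 : ℝ) ^ Module.finrank ℤ (𝓞 K) + tailConst K) ^ 2 / (p : ℝ) ^ 2 := by
    calc x ^ 2 ≤ (((2 : ℝ) ^ Module.finrank ℤ (𝓞 K) + tailConst K) * (p : ℝ)⁻¹) ^ 2 :=
          pow_le_pow_left₀ (by positivity) hxle 2
      _ = _ := by ring
  rw [hsplit]
  have hx0 : 0 ≤ x := by positivity
  refine ⟨by linarith, ?_⟩
  have hup : Real.log (1 + x) ≤ x := by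
    have := Real.log_le_sub_one_of_pos (x := 1 + x) (by linarith); linarith
  have hlow : x - x ^ 2 ≤ Real.log (1 + x) := by
    have := Real.one_sub_inv_le_log_of_pos (x := 1 + x) (by linarith)
    have h2 : x - x ^ 2 ≤ 1 - (1 + x)⁻¹ := by
      rw [show 1 - (1 + x)⁻¹ = x / (1 + x) by field_simp; ring, le_div_iff₀ (by linarith)]
      nlinarith
    linarith
  have hsq0 : 0 ≤ x ^ 2 := sq_nonneg x
  have hRle' : R ≤ tailConst K / (p : ℝ) ^ 2 := by rwa [div_eq_inv_mul]
  rw [factorConst, add_div, abs_le]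
  have hq : 0 ≤ ((2 : ℝ) ^ Module.finrank ℤ (𝓞 K) + tailConst K) ^ 2 / (p : ℝ) ^ 2 := by
    positivity
  constructor <;> linarith

theorem summable_primes_inv_sq : Summable fun p : Nat.Primes => ((p : ℝ) ^ 2)⁻¹ :=
  ((Real.summable_nat_pow_inv).mpr one_lt_two).comp_injective Subtype.val_injective

/-- `∑_p a(p) p ^ (-s) = log (1 / (s - 1)) + O(1)` as `s → 1+`. -/
theorem exists_bound_primeSum :
    ∃ B : ℝ, ∀ᶠ s in 𝓝[>] (1 : ℝ), Summable (fun p : Nat.Primes => zetaTerm K s p) ∧
      |(∑' p : Nat.Primes, zetaTerm K s p) + Real.log (s - 1)| ≤ B := by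
  have hlim : Tendsto (fun s : ℝ => Real.log ((s - 1) * ∑' n, zetaTerm K s n)) (𝓝[>] 1)
      (𝓝 (Real.log (dedekindZeta_residue K))) :=
    ((Real.continuousAt_log (dedekindZeta_residue_ne_zero K)).tendsto).comp
      (tendsto_sub_one_mul_tsum_zetaTerm K)
  refine ⟨|Real.log (dedekindZeta_residue K)| + 1 +
    factorConst K * ∑' p : Nat.Primes, ((p : ℝ) ^ 2)⁻¹, ?_⟩
  filter_upwards [eventually_zeta_pos K, self_mem_nhdsWithin,
    hlim.abs.eventually (gt_mem_nhds (lt_add_one |Real.log (dedekindZeta_residue K)|))]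
    with s ⟨hsum, hpos⟩ (h1 : 1 < s) hlog
  have hps : Summable fun p : Nat.Primes => zetaTerm K s p :=
    hsum.comp_injective Subtype.val_injective
  refine ⟨hps, ?_⟩
  have hf : ∀ p : Nat.Primes, 0 < ∑' e, zetaTerm K s ((p : ℕ) ^ e) :=
    fun p => (log_factor_approx K p.2 h1 hsum).1
  set D : Nat.Primes → ℝ := fun p =>
    Real.log (∑' e, zetaTerm K s ((p : ℕ) ^ e)) - zetaTerm K s p with hD
  have hDle : ∀ p : Nat.Primes, ‖D p‖ ≤ factorConst K * ((p : ℝ) ^ 2)⁻¹ := fun p => by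
    rw [Real.norm_eq_abs, ← div_eq_mul_inv]
    exact (log_factor_approx K p.2 h1 hsum).2
  have hDs : Summable D :=
    Summable.of_norm_bounded (summable_primes_inv_sq.mul_left _) hDle
  have hDb : |∑' p, D p| ≤ factorConst K * ∑' p : Nat.Primes, ((p : ℝ) ^ 2)⁻¹ := by
    rw [← tsum_mul_left, ← Real.norm_eq_abs]
    exact tsum_of_norm_bounded (summable_primes_inv_sq.mul_left _).hasSum hDle
  have hls : Summable fun p : Nat.Primes =>
      Real.log (∑' e, zetaTerm K s ((p : ℕ) ^ e)) := by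
    refine (hDs.add hps).congr fun p => ?_
    simp [hD]
  have hsn : Summable fun n => ‖zetaTerm K s n‖ :=
    hsum.congr fun n => (Real.norm_of_nonneg (zetaTerm_nonneg K s n)).symm
  have hprod := EulerProduct.eulerProduct_hasProd (zetaTerm_one K s)
    (fun h => zetaTerm_mul K s h) hsn (zetaTerm_zero K (by linarith))
  have hexp := (Real.hasProd_of_hasSum_log hf hls.hasSum).unique hprod
  have hlogeq : (∑' p : Nat.Primes, Real.log (∑' e, zetaTerm K s ((p : ℕ) ^ e))) =
      Real.log (∑' n, zetaTerm K s n) := by rw [← hexp, Real.log_exp]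
  have hsub : (∑' p : Nat.Primes, zetaTerm K s p) =
      Real.log (∑' n, zetaTerm K s n) - ∑' p, D p := by
    rw [← hlogeq, ← hls.tsum_sub hDs]
    exact tsum_congr fun p => by simp [hD]
  rw [Real.log_mul (by linarith) hpos.ne'] at hlog
  rw [hsub]
  have := abs_lt.mp hlog
  have := abs_le.mp hDb
  rw [abs_le]
  constructor <;> linarith

end Fermat.Agent.Density
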