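import Mathlib.Algebra.Algebra.Basic
import Mathlib.Tactic.NoncommRing
import Mathlib.Tactic.Module

/-!
# Quadratic relations pass to powers
-/

set_option autoImplicit false

namespace Fermat.Agent.Density

/-- If `M² - cM + d = 0` then every power of `M` satisfies a relation of the same shape with
constant term `d ^ k`. -/
theorem exists_quadratic_pow {A R : Type*} [CommRing A] [Ring R] [Algebra A R] {M : R} {c d : A}
    (h : M ^ 2 - c • M + algebraMap A R d = 0) (k : ℕ) :
    ∃ c' : A, (M ^ k) ^ 2 - c' • M ^ k + algebraMap A R (d ^ k) = 0 := by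
  have hM : M ^ 2 + d • (1 : R) = c • M := by
    rw [Algebra.algebraMap_eq_smul_one] at h
    rw [← sub_eq_zero, ← h]
    abel
  suffices ∀ k : ℕ, ∃ c' : A, M ^ (2 * k) + d ^ k • (1 : R) = c' • M ^ k by
    obtain ⟨c', hc'⟩ := this k
    refine ⟨c', ?_⟩
    rw [← pow_mul, mul_comm k 2, Algebra.algebraMap_eq_smul_one, ← sub_eq_zero.mpr hc']
    abel
  intro k
  induction k using Nat.strong_induction_on with
  | _ k ih =>
    match k with
    | 0 => exact ⟨2, by simp [two_smul]⟩
    | 1 => exact ⟨c, by simpa using hM⟩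
    | k + 2 =>
      obtain ⟨a, ha⟩ := ih (k + 1) (by omega)
      obtain ⟨b, hb⟩ := ih k (by omega)
      refine ⟨c * a - d * b, ?_⟩
      have e1 : (c * a) • M ^ (k + 2) = (M ^ 2 + d • 1) * (M ^ (2 * (k + 1)) + d ^ (k + 1) • 1) := by
        rw [hM, ha, smul_mul_assoc, mul_smul_comm, smul_smul, ← pow_succ']
      have e2 : (d * b) • M ^ (k + 2) = d • (M ^ 2 * (M ^ (2 * k) + d ^ k • 1)) := by
        rw [hb, mul_smul_comm, smul_smul, ← pow_add, add_comm 2 k]
      rw [sub_smul, e1, e2]
      simp only [add_mul, mul_add, smul_mul_assoc, mul_smul_comm, one_mul, mul_one, smul_add,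
        smul_smul, ← pow_add]
      simp only [show 2 + (2 * k + 2) = 2 * k + 2 * 2 by ring,
        show 2 + 2 * k = 2 * k + 2 by ring, ← pow_succ, ← pow_succ']
      abel

end Fermat.Agent.Density
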