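import Fermat.Agent.Density.Qbar
import Fermat.Prelude.Def_GaloisRep_Adic
import Mathlib.RingTheory.AdicCompletion.Basic
import Mathlib.LinearAlgebra.Matrix.Charpoly.Coeff
import Mathlib.LinearAlgebra.Charpoly.ToMatrix

/-!
# Representations determined by Frobenius characteristic polynomials
-/

set_option autoImplicit false

noncomputable section

namespace Fermat.Agent.Density

open Polynomial

/-- A function on `Gal(ℚ̄/ℚ)` is adically of finite level. -/
def IsAdicLevel {A : Type*} [CommRing A] (I : Ideal A)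
    (f : (AlgebraicClosure ℚ ≃ₐ[ℚ] AlgebraicClosure ℚ) → A) : Prop :=
  ∀ n : ℕ, ∃ L : IntermediateField ℚ (AlgebraicClosure ℚ), FiniteDimensional ℚ L ∧
    ∀ g h : AlgebraicClosure ℚ ≃ₐ[ℚ] AlgebraicClosure ℚ, (∀ x ∈ L, g x = h x) →
      f g - f h ∈ I ^ n

/-- Functions of adically finite level which agree at all powers of Frobenius elements
outside `S` agree everywhere. -/
theorem eq_of_forall_frobenius_pow {A : Type*} [CommRing A] {I : Ideal A} [IsHausdorff I A]
    {f₁ f₂ : (AlgebraicClosure ℚ ≃ₐ[ℚ] AlgebraicClosure ℚ) → A}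
    (h₁ : IsAdicLevel I f₁) (h₂ : IsAdicLevel I f₂) (S : Finset ℕ)
    (hF : ∀ p : ℕ, p.Prime → p ∉ S → ∀ P : ValuationSubring (AlgebraicClosure ℚ),
      P.LiesOverPrime p → ∀ σ : AlgebraicClosure ℚ ≃ₐ[ℚ] AlgebraicClosure ℚ,
        P.IsFrobeniusAt σ p → ∀ k : ℕ, f₁ (σ ^ k) = f₂ (σ ^ k))
    (g : AlgebraicClosure ℚ ≃ₐ[ℚ] AlgebraicClosure ℚ) : f₁ g = f₂ g := by
  refine sub_eq_zero.mp (IsHausdorff.haus' (I := I) (f₁ g - f₂ g) fun n => ?_)
  rw [SModEq.zero, smul_eq_mul, Ideal.mul_top]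
  obtain ⟨L₁, hL₁, e₁⟩ := h₁ n
  obtain ⟨L₂, hL₂, e₂⟩ := h₂ n
  obtain ⟨p, hp, hpS, P, hP, σ, hσ, k, hk⟩ := exists_frobenius_pow_eq (L₁ ⊔ L₂) g S
  have a := e₁ (σ ^ k) g fun x hx => hk x (le_sup_left (a := L₁) hx)
  have b := e₂ (σ ^ k) g fun x hx => hk x (le_sup_right (a := L₁) hx)
  rw [hF p hp hpS P hP σ hσ k] at a
  simpa using sub_mem b a

/-- Entrywise congruences are preserved by trace and determinant. -/
theorem trace_det_sub_mem {A V : Type*} [CommRing A] [AddCommGroup V] [Module A V]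
    {ι : Type*} [Fintype ι] [DecidableEq ι] (b : Module.Basis ι A V) (I : Ideal A)
    {M N : Module.End A V} (h : ∀ v, M v - N v ∈ I • (⊤ : Submodule A V)) :
    LinearMap.trace A V M - LinearMap.trace A V N ∈ I ∧
      LinearMap.det M - LinearMap.det N ∈ I := by
  have hent : (LinearMap.toMatrix b b M).map (Ideal.Quotient.mk I) =
      (LinearMap.toMatrix b b N).map (Ideal.Quotient.mk I) := by
    ext i j
    simp only [Matrix.map_apply, LinearMap.toMatrix_apply, Ideal.Quotient.eq,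
      ← Finsupp.sub_apply, ← map_sub]
    have : ∀ v ∈ I • (⊤ : Submodule A V), b.repr v i ∈ I := by
      intro v hv
      refine Submodule.smul_induction_on hv (fun a ha w _ => ?_) fun x y hx hy => ?_
      · rw [map_smul, Finsupp.smul_apply, smul_eq_mul]
        exact I.mul_mem_right _ ha
      · rw [map_add, Finsupp.add_apply]
        exact I.add_mem hx hy
    exact this _ (h _)
  constructor
  · rw [← Ideal.Quotient.eq, LinearMap.trace_eq_matrix_trace A b,
      LinearMap.trace_eq_matrix_trace A b]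
    simp only [Matrix.trace, map_sum, Matrix.diag_apply]
    exact Finset.sum_congr rfl fun i _ => congrFun (congrFun hent i) i
  · rw [← Ideal.Quotient.eq, ← LinearMap.det_toMatrix b M, ← LinearMap.det_toMatrix b N,
      RingHom.map_det, RingHom.map_det, RingHom.mapMatrix_apply, RingHom.mapMatrix_apply, hent]

/-- The congruence at a finite level between values of a continuous representation. -/
theorem exists_level_sub_mem {A : Type} [CommRing A] [IsLocalRing A] (ρ : GaloisRepAdic A)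
    (n : ℕ) : ∃ L : IntermediateField ℚ (AlgebraicClosure ℚ), FiniteDimensional ℚ L ∧
      ∀ g h : AlgebraicClosure ℚ ≃ₐ[ℚ] AlgebraicClosure ℚ, (∀ x ∈ L, g x = h x) →
        ∀ v, ρ.ρ g v - ρ.ρ h v ∈
          (IsLocalRing.maximalIdeal A ^ n) • (⊤ : Submodule A ρ.V) := by
  obtain ⟨L, hL, h1⟩ := ρ.isAdicContinuous n
  refine ⟨L, hL, fun g h hgh v => ?_⟩
  have hfix : ∀ x ∈ L, (h⁻¹ * g) x = x := fun x hx => by
    rw [AlgEquiv.mul_apply, hgh x hx, ← AlgEquiv.mul_apply, inv_mul_cancel, AlgEquiv.one_apply]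
  have he : ρ.ρ g v - ρ.ρ h v = ρ.ρ h (ρ.ρ (h⁻¹ * g) v - v) := by
    rw [map_sub, ← Module.End.mul_apply, ← map_mul, mul_inv_cancel_left]
  rw [he]
  refine Submodule.smul_induction_on (h1 _ hfix v) (fun a ha w _ => ?_) fun x y hx hy => ?_
  · rw [map_smul]
    exact Submodule.smul_mem_smul ha Submodule.mem_top
  · rw [map_add]
    exact add_mem hx hy

/-- The trace of a continuous representation has adically finite level. -/
theorem isAdicLevel_trace {A : Type} [CommRing A] [IsLocalRing A] (ρ : GaloisRepAdic A) :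
    IsAdicLevel (IsLocalRing.maximalIdeal A) fun g => LinearMap.trace A ρ.V (ρ.ρ g) := fun n => by
  obtain ⟨L, hL, e⟩ := exists_level_sub_mem ρ n
  exact ⟨L, hL, fun g h hgh =>
    (trace_det_sub_mem (Module.finBasisOfFinrankEq A ρ.V ρ.finrank_eq) _ (e g h hgh)).1⟩

/-- The determinant of a continuous representation has adically finite level. -/
theorem isAdicLevel_det {A : Type} [CommRing A] [IsLocalRing A] (ρ : GaloisRepAdic A) :
    IsAdicLevel (IsLocalRing.maximalIdeal A) fun g => LinearMap.det (ρ.ρ g) := fun n => by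
  obtain ⟨L, hL, e⟩ := exists_level_sub_mem ρ n
  exact ⟨L, hL, fun g h hgh =>
    (trace_det_sub_mem (Module.finBasisOfFinrankEq A ρ.V ρ.finrank_eq) _ (e g h hgh)).2⟩

/-- Characters of adically finite level agreeing at Frobenius elements agree. -/
theorem monoidHom_eq_of_forall_frobenius {A : Type*} [CommRing A] {I : Ideal A} [IsHausdorff I A]
    {χ₁ χ₂ : (AlgebraicClosure ℚ ≃ₐ[ℚ] AlgebraicClosure ℚ) →* A}
    (h₁ : IsAdicLevel I χ₁) (h₂ : IsAdicLevel I χ₂) (S : Finset ℕ)
    (hF : ∀ p : ℕ, p.Prime → p ∉ S → ∀ P : ValuationSubring (AlgebraicClosure ℚ),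
      P.LiesOverPrime p → ∀ σ : AlgebraicClosure ℚ ≃ₐ[ℚ] AlgebraicClosure ℚ,
        P.IsFrobeniusAt σ p → χ₁ σ = χ₂ σ) :
    χ₁ = χ₂ := by
  refine MonoidHom.ext fun g => eq_of_forall_frobenius_pow h₁ h₂ S ?_ g
  intro p hp hpS P hP σ hσ k
  rw [map_pow, map_pow, hF p hp hpS P hP σ hσ]

/-- A two dimensional characteristic polynomial. -/
theorem charpoly_fin_two_eq {A V : Type*} [CommRing A] [Nontrivial A] [AddCommGroup V]
    [Module A V] [Module.Free A V] [Module.Finite A V] (hV : Module.finrank A V = 2)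
    (M : Module.End A V) :
    LinearMap.charpoly M = X ^ 2 - C (LinearMap.trace A V M) * X + C (LinearMap.det M) := by
  let b := Module.finBasisOfFinrankEq A V hV
  rw [← LinearMap.charpoly_toMatrix M b, LinearMap.trace_eq_matrix_trace A b,
    ← LinearMap.det_toMatrix b, Matrix.charpoly_fin_two]

/-- In dimension two, the trace and determinant determine the traces of all powers. -/
theorem trace_pow_eq {A : Type*} [CommRing A] {M N : Matrix (Fin 2) (Fin 2) A}
    (ht : M.trace = N.trace) (hd : M.det = N.det) (k : ℕ) :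
    (M ^ k).trace = (N ^ k).trace := by
  have hrec : ∀ (P : Matrix (Fin 2) (Fin 2) A) (k : ℕ),
      (P ^ (k + 2)).trace = P.trace * (P ^ (k + 1)).trace - P.det * (P ^ k).trace := by
    intro P k
    have hc : P * P = P.trace • P - P.det • (1 : Matrix (Fin 2) (Fin 2) A) := by
      rw [Matrix.det_fin_two, Matrix.trace_fin_two]
      ext i j
      fin_cases i <;> fin_cases j <;>
        simp [Matrix.mul_apply, Fin.sum_univ_two] <;> ring
    rw [pow_add P k 2, pow_two, hc, mul_sub, Matrix.mul_smul, Matrix.mul_smul, mul_one,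
      ← pow_succ, Matrix.trace_sub, Matrix.trace_smul, Matrix.trace_smul, smul_eq_mul, smul_eq_mul]
  induction k using Nat.strong_induction_on with
  | _ k ih =>
    match k with
    | 0 => simp
    | 1 => simpa using ht
    | k + 2 => rw [hrec, hrec, ht, hd, ih (k + 1) (by omega), ih k (by omega)]

/-- In dimension two, equal characteristic polynomials give equal traces and determinants of
all powers. -/
theorem trace_det_pow_eq {A V W : Type*} [CommRing A] [Nontrivial A]
    [AddCommGroup V] [Module A V] [Module.Free A V] [Module.Finite A V]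
    [AddCommGroup W] [Module A W] [Module.Free A W] [Module.Finite A W]
    (hV : Module.finrank A V = 2) (hW : Module.finrank A W = 2)
    {M : Module.End A V} {N : Module.End A W}
    (h : LinearMap.charpoly M = LinearMap.charpoly N) (k : ℕ) :
    LinearMap.trace A V (M ^ k) = LinearMap.trace A W (N ^ k) ∧
      LinearMap.det (M ^ k) = LinearMap.det (N ^ k) := by
  have ht : LinearMap.trace A V M = LinearMap.trace A W N := by
    have := congrArg (fun p : A[X] => p.coeff 1) h
    simpa [charpoly_fin_two_eq hV, charpoly_fin_two_eq hW, coeff_X_pow, coeff_C] using this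
  have hd : LinearMap.det M = LinearMap.det N := by
    have := congrArg (fun p : A[X] => p.coeff 0) h
    simpa [charpoly_fin_two_eq hV, charpoly_fin_two_eq hW, coeff_X_pow] using this
  refine ⟨?_, by rw [map_pow, map_pow, hd]⟩
  let b := Module.finBasisOfFinrankEq A V hV
  let c := Module.finBasisOfFinrankEq A W hW
  rw [LinearMap.trace_eq_matrix_trace A b, LinearMap.trace_eq_matrix_trace A c] at ht ⊢
  rw [← LinearMap.det_toMatrix b, ← LinearMap.det_toMatrix c] at hd
  rw [← LinearMap.toMatrix_pow, ← LinearMap.toMatrix_pow]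
  exact trace_pow_eq ht hd k

/-- Two continuous representations with equal Frobenius characteristic polynomials outside a
finite set have equal characteristic polynomials everywhere. -/
theorem charpoly_eq_of_forall_frobenius {A : Type} [CommRing A] [IsLocalRing A]
    [IsHausdorff (IsLocalRing.maximalIdeal A) A] (ρ₁ ρ₂ : GaloisRepAdic A) (S : Finset ℕ)
    (hF : ∀ p : ℕ, p.Prime → p ∉ S → ∀ P : ValuationSubring (AlgebraicClosure ℚ),
      P.LiesOverPrime p → ∀ σ : AlgebraicClosure ℚ ≃ₐ[ℚ] AlgebraicClosure ℚ,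
        P.IsFrobeniusAt σ p → LinearMap.charpoly (ρ₁.ρ σ) = LinearMap.charpoly (ρ₂.ρ σ))
    (g : AlgebraicClosure ℚ ≃ₐ[ℚ] AlgebraicClosure ℚ) :
    LinearMap.charpoly (ρ₁.ρ g) = LinearMap.charpoly (ρ₂.ρ g) := by
  have key : ∀ p : ℕ, p.Prime → p ∉ S → ∀ P : ValuationSubring (AlgebraicClosure ℚ),
      P.LiesOverPrime p → ∀ σ : AlgebraicClosure ℚ ≃ₐ[ℚ] AlgebraicClosure ℚ,
        P.IsFrobeniusAt σ p → ∀ k : ℕ,
          LinearMap.trace A ρ₁.V (ρ₁.ρ (σ ^ k)) = LinearMap.trace A ρ₂.V (ρ₂.ρ (σ ^ k)) ∧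
            LinearMap.det (ρ₁.ρ (σ ^ k)) = LinearMap.det (ρ₂.ρ (σ ^ k)) := by
    intro p hp hpS P hP σ hσ k
    rw [show ρ₁.ρ (σ ^ k) = ρ₁.ρ σ ^ k from map_pow _ _ _,
      show ρ₂.ρ (σ ^ k) = ρ₂.ρ σ ^ k from map_pow _ _ _]
    exact trace_det_pow_eq ρ₁.finrank_eq ρ₂.finrank_eq (hF p hp hpS P hP σ hσ) k
  rw [charpoly_fin_two_eq ρ₁.finrank_eq, charpoly_fin_two_eq ρ₂.finrank_eq,
    eq_of_forall_frobenius_pow (isAdicLevel_trace ρ₁) (isAdicLevel_trace ρ₂) S
      (fun p hp hpS P hP σ hσ k => (key p hp hpS P hP σ hσ k).1) g,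
    eq_of_forall_frobenius_pow (isAdicLevel_det ρ₁) (isAdicLevel_det ρ₂) S
      (fun p hp hpS P hP σ hσ k => (key p hp hpS P hP σ hσ k).2) g]

/-- Residual version. -/
theorem residual_charpoly_eq_of_forall_frobenius {k : Type} [Field k]
    (ρ₁ ρ₂ : ResidualGaloisRep k) (S : Finset ℕ)
    (hF : ∀ p : ℕ, p.Prime → p ∉ S → ∀ P : ValuationSubring (AlgebraicClosure ℚ),
      P.LiesOverPrime p → ∀ σ : AlgebraicClosure ℚ ≃ₐ[ℚ] AlgebraicClosure ℚ,
        P.IsFrobeniusAt σ p → LinearMap.charpoly (ρ₁.ρ σ) = LinearMap.charpoly (ρ₂.ρ σ))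
    (g : AlgebraicClosure ℚ ≃ₐ[ℚ] AlgebraicClosure ℚ) :
    LinearMap.charpoly (ρ₁.ρ g) = LinearMap.charpoly (ρ₂.ρ g) :=
  charpoly_eq_of_forall_frobenius (GaloisRepAdic.ofResidualGaloisRep ρ₁)
    (GaloisRepAdic.ofResidualGaloisRep ρ₂) S hF g

end Fermat.Agent.Density
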